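import Mathlib
import Fermat.Prelude.Def_CuspForm_HeckeAlgebra
import Fermat.Agent.S22.H50.Eint
import Fermat.Agent.S22.H75.CocycleFG
import Fermat.Agent.S22.H75.Gamma0FG

/-!
# Period polynomials of cusp forms on `Γ₀(N)` and the lattice they span

For `f ∈ S_{n+2}(Γ₀(N))` with Eichler integral `E = eint 1 (n+1) f` and `γ ∈ Γ₀(N)`, the function
`E ∣[-n] γ - E` is a polynomial of degree `≤ n`: the period polynomial.  The period polynomials
form a cocycle, and their coefficients span a finitely generated `ℤ`-lattice of linear forms.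
-/

open UpperHalfPlane hiding I
open Complex Filter Function Polynomial
open scoped Real Topology Manifold MatrixGroups ModularForm
open Derivative CongruenceSubgroup Matrix.SpecialLinearGroup
open Fermat.Agent.S22.H50

set_option autoImplicit false

namespace Fermat.Agent.S22.H35

/-! ### The action of integer matrices on polynomials of degree `≤ n` -/

/-- The integer polynomial `(aX+b)^i (cX+d)^(n-i)`. -/
noncomputable def basePoly (a b c d : ℤ) (n i : ℕ) : ℤ[X] :=
  (C a * X + C b) ^ i * (C c * X + C d) ^ (n - i)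

/-- The weight `-n` action of the integer matrix `[a, b; c, d]` on polynomials (of degree
`≤ n`): `p ↦ (cX+d)^n p((aX+b)/(cX+d))`. -/
noncomputable def polyAct (a b c d : ℤ) (n : ℕ) (p : ℂ[X]) : ℂ[X] :=
  ∑ i ∈ Finset.range (n + 1), C (p.coeff i) * (basePoly a b c d n i).map (Int.castRingHom ℂ)

theorem coeff_polyAct (a b c d : ℤ) (n : ℕ) (p : ℂ[X]) (j : ℕ) :
    (polyAct a b c d n p).coeff j =
      ∑ i ∈ Finset.range (n + 1), ((basePoly a b c d n i).coeff j) • p.coeff i := by
  rw [polyAct, finsetSum_coeff]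
  refine Finset.sum_congr rfl fun i _ ↦ ?_
  rw [coeff_C_mul, coeff_map, zsmul_eq_mul, mul_comm]
  simp

theorem eval_polyAct (a b c d : ℤ) (n : ℕ) (p : ℂ[X]) (z : ℂ) :
    (polyAct a b c d n p).eval z =
      ∑ i ∈ Finset.range (n + 1),
        p.coeff i * (((a : ℂ) * z + b) ^ i * ((c : ℂ) * z + d) ^ (n - i)) := by
  rw [polyAct, eval_finsetSum]
  refine Finset.sum_congr rfl fun i _ ↦ ?_
  simp [basePoly]

theorem polyFun_slash {g : GL (Fin 2) ℝ} (hg : 0 < g.val.det) {a b c d : ℤ}
    (ha : g 0 0 = a) (hb : g 0 1 = b) (hc : g 1 0 = c) (hd : g 1 1 = d) {n : ℕ} {p : ℂ[X]}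
    (hp : p.natDegree ≤ n) :
    ((g.val.det : ℂ)) ^ (n + 1) • (polyFun p ∣[-(n : ℤ)] g) = polyFun (polyAct a b c d n p) := by
  funext z
  have hdet : g.det.val = g.val.det := Matrix.GeneralLinearGroup.val_det_apply g
  have hg' : 0 < g.det.val := by rw [hdet]; exact hg
  have hδ : (g.val.det : ℂ) ≠ 0 := Complex.ofReal_ne_zero.mpr hg.ne'
  have hz := denom_ne_zero g z
  have hσ : σ g = .refl ℝ ℂ := by rw [σ, if_pos hg']
  have hnum : num g z = (a : ℂ) * z + b := by simp [num, ha, hb]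
  have hden : denom g z = (c : ℂ) * z + d := by simp [denom, hc, hd]
  simp only [Pi.smul_apply, smul_eq_mul, ModularForm.slash_apply, polyFun_apply, hσ,
    ContinuousAlgEquiv.refl_apply, hdet, abs_of_pos hg, eval_polyAct]
  rw [coe_smul_of_det_pos hg' z, eval_eq_sum_range' (Nat.lt_succ_of_le hp), ← hnum, ← hden,
    Finset.sum_mul, Finset.sum_mul, Finset.mul_sum]
  refine Finset.sum_congr rfl fun i hi ↦ ?_
  have hi' : i ≤ n := Nat.lt_succ_iff.mp (Finset.mem_range.mp hi)
  have e1 : -(n : ℤ) - 1 = -((n + 1 : ℕ) : ℤ) := by push_cast; ring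
  rw [e1, zpow_neg, zpow_natCast, neg_neg, zpow_natCast, div_pow]
  have e2 : denom g z ^ n = denom g z ^ i * denom g z ^ (n - i) := by
    rw [← pow_add]; congr 1; omega
  rw [e2]
  field_simp


/-! ### The Eichler integral of a cusp form -/

theorem det_mapGL_val (γ : SL(2, ℤ)) : (mapGL ℝ γ).val.det = 1 := by
  rw [← Matrix.GeneralLinearGroup.val_det_apply, det_mapGL]
  rfl

theorem isCuspPer_cuspForm {N : ℕ} [NeZero N] {k : ℤ} (f : CuspForm (Gamma0 N) k) :
    IsCuspPer 1 (⇑f) := by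
  have hcusp : IsCusp OnePoint.infty
      ((Gamma0 N : Subgroup SL(2, ℤ)) : Subgroup (GL (Fin 2) ℝ)) :=
    (Gamma0 N).isCusp_of_mem_strictPeriods (h := 1) one_pos (by simp [strictPeriods_Gamma0])
  refine ⟨?_, CuspFormClass.holo f,
    (OnePoint.isZeroAt_infty_iff).mp (CuspFormClass.zero_at_cusps f hcusp)⟩
  exact SlashInvariantFormClass.periodic_comp_ofComplex f (by simp [strictPeriods_Gamma0])

variable {N : ℕ} [NeZero N] {n : ℕ}

/-- The Eichler integral of a cusp form of weight `n + 2`: the `(n+1)`-fold primitive which is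
`1`-periodic and vanishes at `i∞`. -/
noncomputable def eichler (f : CuspForm (Gamma0 N) ((n : ℤ) + 2)) : ℍ → ℂ :=
  eint 1 (n + 1) ⇑f

theorem isCuspPer_eichler (f : CuspForm (Gamma0 N) ((n : ℤ) + 2)) : IsCuspPer 1 (eichler f) :=
  (eint_spec one_pos (n + 1) (isCuspPer_cuspForm f)).1

theorem iterate_D_eichler (f : CuspForm (Gamma0 N) ((n : ℤ) + 2)) :
    D^[n + 1] (eichler f) = ⇑f :=
  (eint_spec one_pos (n + 1) (isCuspPer_cuspForm f)).2

theorem eichler_add (f g : CuspForm (Gamma0 N) ((n : ℤ) + 2)) :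
    eichler (f + g) = eichler f + eichler g := by
  rw [eichler, FunLike.coe_add]
  exact eint_add one_pos (n + 1) (isCuspPer_cuspForm f) (isCuspPer_cuspForm g)

theorem eichler_smul (c : ℂ) (f : CuspForm (Gamma0 N) ((n : ℤ) + 2)) :
    eichler (c • f) = c • eichler f := by
  rw [eichler, FunLike.coe_smul]
  exact eint_smul one_pos (n + 1) c (isCuspPer_cuspForm f)

/-! ### Period polynomials -/

theorem exists_period (γ : Gamma0 N) (f : CuspForm (Gamma0 N) ((n : ℤ) + 2)) :
    ∃ p : ℂ[X], p.natDegree ≤ n ∧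
      eichler f ∣[-(n : ℤ)] (mapGL ℝ (γ : SL(2, ℤ))) - eichler f = polyFun p := by
  have hE := isCuspPer_eichler f
  have hpos : 0 < (mapGL ℝ (γ : SL(2, ℤ))).val.det := by
    rw [det_mapGL_val]; exact one_pos
  refine exists_poly_of_iterate_D_eq_zero n ((hE.hol.slash _ _).sub hE.hol) ?_
  rw [iterate_D_sub (n + 1) (hE.hol.slash _ _) hE.hol, bol hpos n hE.hol, iterate_D_eichler,
    det_mapGL_val, SlashInvariantFormClass.slash_action_eq f _
      (Subgroup.mem_map_of_mem (mapGL ℝ) γ.2)]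
  simp

/-- The period polynomial of `f` at `γ ∈ Γ₀(N)`. -/
noncomputable def period (γ : Gamma0 N) (f : CuspForm (Gamma0 N) ((n : ℤ) + 2)) : ℂ[X] :=
  Classical.choose (exists_period γ f)

theorem natDegree_period_le (γ : Gamma0 N) (f : CuspForm (Gamma0 N) ((n : ℤ) + 2)) :
    (period γ f).natDegree ≤ n :=
  (Classical.choose_spec (exists_period γ f)).1

theorem polyFun_period (γ : Gamma0 N) (f : CuspForm (Gamma0 N) ((n : ℤ) + 2)) :
    polyFun (period γ f) =
      eichler f ∣[-(n : ℤ)] (mapGL ℝ (γ : SL(2, ℤ))) - eichler f :=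
  (Classical.choose_spec (exists_period γ f)).2.symm

theorem eichler_slash (γ : Gamma0 N) (f : CuspForm (Gamma0 N) ((n : ℤ) + 2)) :
    eichler f ∣[-(n : ℤ)] (mapGL ℝ (γ : SL(2, ℤ))) = eichler f + polyFun (period γ f) := by
  rw [polyFun_period]; abel

theorem period_add (γ : Gamma0 N) (f g : CuspForm (Gamma0 N) ((n : ℤ) + 2)) :
    period γ (f + g) = period γ f + period γ g := by
  apply polyFun_injective
  rw [polyFun_add, polyFun_period, polyFun_period, polyFun_period, eichler_add,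
    SlashAction.add_slash]
  abel

theorem period_smul (γ : Gamma0 N) (c : ℂ) (f : CuspForm (Gamma0 N) ((n : ℤ) + 2)) :
    period γ (c • f) = c • period γ f := by
  apply polyFun_injective
  have hσ : σ (mapGL ℝ (γ : SL(2, ℤ))) = .refl ℝ ℂ := by
    rw [σ, if_pos]
    rw [Matrix.GeneralLinearGroup.val_det_apply, det_mapGL_val]; exact one_pos
  rw [polyFun_smul, polyFun_period, polyFun_period, eichler_smul, ModularForm.smul_slash, hσ,
    ContinuousAlgEquiv.refl_apply, smul_sub]

/-- The period polynomial as a linear map. -/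
noncomputable def periodLin (γ : Gamma0 N) :
    CuspForm (Gamma0 N) ((n : ℤ) + 2) →ₗ[ℂ] ℂ[X] where
  toFun := period γ
  map_add' := period_add γ
  map_smul' := period_smul γ

@[simp] theorem periodLin_apply (γ : Gamma0 N) (f : CuspForm (Gamma0 N) ((n : ℤ) + 2)) :
    periodLin γ f = period γ f := rfl

theorem period_one (f : CuspForm (Gamma0 N) ((n : ℤ) + 2)) :
    period (1 : Gamma0 N) f = 0 := by
  apply polyFun_injective
  rw [polyFun_period, polyFun_zero]
  simp

/-- The cocycle relation of the period polynomials. -/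
theorem period_mul (γ δ : Gamma0 N) (f : CuspForm (Gamma0 N) ((n : ℤ) + 2)) :
    period (γ * δ) f =
      polyAct ((δ : SL(2, ℤ)) 0 0) ((δ : SL(2, ℤ)) 0 1) ((δ : SL(2, ℤ)) 1 0)
        ((δ : SL(2, ℤ)) 1 1) n (period γ f) + period δ f := by
  apply polyFun_injective
  have hpos : 0 < (mapGL ℝ (δ : SL(2, ℤ))).val.det := by
    rw [det_mapGL_val]; exact one_pos
  have h1 := polyFun_slash hpos (a := (δ : SL(2, ℤ)) 0 0) (b := (δ : SL(2, ℤ)) 0 1)
    (c := (δ : SL(2, ℤ)) 1 0) (d := (δ : SL(2, ℤ)) 1 1) (by simp) (by simp) (by simp) (by simp)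
    (natDegree_period_le γ f)
  rw [det_mapGL_val] at h1
  simp only [ofReal_one, one_pow, one_smul] at h1
  rw [polyFun_add, ← h1, polyFun_period, polyFun_period δ f]
  have e : ((γ * δ : Gamma0 N) : SL(2, ℤ)) = (γ : SL(2, ℤ)) * (δ : SL(2, ℤ)) := rfl
  rw [e, map_mul, SlashAction.slash_mul, eichler_slash γ f, SlashAction.add_slash]
  abel


/-! ### The lattice of period functionals -/

/-- The `j`-th coefficient of the period polynomial at `γ`, as a linear form on cusp forms. -/
noncomputable def coeffFun (γ : Gamma0 N) (j : Fin (n + 1)) :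
    Module.Dual ℂ (CuspForm (Gamma0 N) ((n : ℤ) + 2)) :=
  (lcoeff ℂ (j : ℕ)) ∘ₗ periodLin γ

theorem coeffFun_apply (γ : Gamma0 N) (j : Fin (n + 1))
    (f : CuspForm (Gamma0 N) ((n : ℤ) + 2)) : coeffFun γ j f = (period γ f).coeff j := rfl

variable (N n) in
/-- The `ℤ`-lattice spanned by the coefficients of the period polynomials. -/
noncomputable def lattice : Submodule ℤ (Module.Dual ℂ (CuspForm (Gamma0 N) ((n : ℤ) + 2))) :=
  Submodule.span ℤ (Set.range fun x : Gamma0 N × Fin (n + 1) => coeffFun x.1 x.2)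

theorem coeffFun_mem_lattice (γ : Gamma0 N) (j : Fin (n + 1)) : coeffFun γ j ∈ lattice N n :=
  Submodule.subset_span ⟨(γ, j), rfl⟩

theorem lattice_fg : (lattice N n).FG := by
  have := Fermat.Agent.S22.H75.fg_Gamma0 N
  refine Fermat.Agent.S22.H75.fg_span_of_cocycle
    (fun (δ : Gamma0 N) (j l : Fin (n + 1)) =>
      (basePoly ((δ : SL(2, ℤ)) 0 0) ((δ : SL(2, ℤ)) 0 1) ((δ : SL(2, ℤ)) 1 0)
        ((δ : SL(2, ℤ)) 1 1) n l).coeff j) coeffFun ?_ ?_
  · intro j
    ext f
    simp [coeffFun_apply, period_one]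
  · intro g h j
    ext f
    simp only [coeffFun_apply, period_mul, coeff_add, coeff_polyAct, LinearMap.add_apply,
      LinearMap.coe_sum, Finset.sum_apply, LinearMap.smul_apply]
    rw [Fin.sum_univ_eq_sum_range (fun l => (basePoly ((h : SL(2, ℤ)) 0 0) ((h : SL(2, ℤ)) 0 1)
      ((h : SL(2, ℤ)) 1 0) ((h : SL(2, ℤ)) 1 1) n l).coeff (j : ℕ) • (period g f).coeff l)]

theorem period_eq_zero_of_forall_lattice (f : CuspForm (Gamma0 N) ((n : ℤ) + 2))
    (h : ∀ l ∈ lattice N n, l f = 0) (γ : Gamma0 N) : period γ f = 0 := by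
  ext j
  by_cases hj : j ≤ n
  · have := h (coeffFun γ ⟨j, Nat.lt_succ_of_le hj⟩) (coeffFun_mem_lattice _ _)
    simpa [coeffFun_apply] using this
  · rw [coeff_zero]
    exact coeff_eq_zero_of_natDegree_lt
      (lt_of_le_of_lt (natDegree_period_le γ f) (not_le.mp hj))

/-- If all lattice functionals vanish on `f`, the Eichler integral of `f` is invariant of
weight `-n` under `Γ₀(N)`. -/
theorem eichler_slash_eq_of_forall_lattice (f : CuspForm (Gamma0 N) ((n : ℤ) + 2))
    (h : ∀ l ∈ lattice N n, l f = 0) (γ : SL(2, ℤ)) (hγ : γ ∈ Gamma0 N) :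
    eichler f ∣[-(n : ℤ)] γ = eichler f := by
  have h1 := eichler_slash ⟨γ, hγ⟩ f
  rw [period_eq_zero_of_forall_lattice f h, polyFun_zero, add_zero] at h1
  exact h1

end Fermat.Agent.S22.H35
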