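import Fermat.Agent.S22.H35.Period
import Fermat.Agent.S22.H62.Separation
import Fermat.Agent.S22.H75.HeckeAssembly
import Fermat.Agent.S22.H75.TrivialLeOne

/-!
# Separation for the period lattice, and the conditional assembly of S22

The lattice `lattice N n` of `Fermat.Agent.S22.H35.Period` separates the points of
`S_{n+2}(Γ₀(N))` (via `Fermat.Agent.S22.H62.separation_core`), and therefore the Hecke algebra is
a finite `ℤ`-module as soon as the lattice is stable under the Hecke operators.
-/

open UpperHalfPlane hiding I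
open Complex Filter Function Polynomial
open scoped Real Topology Manifold MatrixGroups ModularForm
open Derivative CongruenceSubgroup Matrix.SpecialLinearGroup

set_option autoImplicit false

namespace Fermat.Agent.S22.H35

variable {N : ℕ} [NeZero N] {n : ℕ}

/-- The period lattice separates the points of the space of cusp forms. -/
theorem lattice_sep (f : CuspForm (Gamma0 N) ((n : ℤ) + 2))
    (h : ∀ l ∈ lattice N n, l f = 0) : f = 0 :=
  Fermat.Agent.S22.H62.separation_core N n f (eichler f) (isCuspPer_eichler f).hol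
    (iterate_D_eichler f) (fun γ hγ => eichler_slash_eq_of_forall_lattice f h γ hγ)

/-- Conditional form of S22: finiteness of the Hecke algebra, given the Hecke stability of the
period lattices. -/
theorem finite_heckeAlgebra_of_stable (N : ℕ) [NeZero N] (k : ℤ) (S : Set ℕ)
    (hT : ∀ (n : ℕ) (ℓ : ℕ) (hℓ : ℓ.Prime) (hℓN : ¬ ℓ ∣ N), ∀ l ∈ lattice N n,
      l ∘ₗ CuspForm.heckeTLin ((n : ℤ) + 2) hℓ hℓN ∈ lattice N n)
    (hU : ∀ (n : ℕ) (q : ℕ) (hqN : q ∣ N), q.Prime → ∀ l ∈ lattice N n,
      l ∘ₗ CuspForm.heckeULin ((n : ℤ) + 2) hqN ∈ lattice N n) :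
    Module.Finite ℤ (CuspForm.heckeAlgebra N k S) := by
  by_cases hk : k ≤ 1
  · exact Fermat.Agent.S22.H75.finite_heckeAlgebra_of_weight_le_one N k S hk
  · obtain ⟨n, rfl⟩ : ∃ n : ℕ, k = (n : ℤ) + 2 := ⟨(k - 2).toNat, by omega⟩
    exact Fermat.Agent.S22.H75.finite_heckeAlgebra_of_lattice N _ S (lattice N n) lattice_fg
      lattice_sep (hT n) (hU n)

end Fermat.Agent.S22.H35
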