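import Fermat.Agent.S22.H50.Lattice
import Fermat.Agent.S22.H62.Separation
import Fermat.Agent.S22.H75.HeckeAssembly
import Fermat.Agent.S22.H75.TrivialLeOne

/-!
# Separation for the lattice `Fermat.Agent.S22.H50.perLattice`, and the conditional assembly

Same as `Fermat.Agent.S22.H35.Sep`, but for the period lattice of `Fermat.Agent.S22.H50.Lattice`.
-/

open UpperHalfPlane hiding I
open Complex Filter Function Polynomial
open scoped Real Topology Manifold MatrixGroups ModularForm
open Derivative CongruenceSubgroup Matrix.SpecialLinearGroup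

set_option autoImplicit false

namespace Fermat.Agent.S22.H35

open Fermat.Agent.S22.H50 in
/-- The period lattice `perLattice N n` separates the points of the space of cusp forms. -/
theorem perLattice_sep {N : ℕ} [NeZero N] {n : ℕ} (f : CuspForm (Gamma0 N) ((n : ℤ) + 2))
    (h : ∀ l ∈ perLattice N n, l f = 0) : f = 0 := by
  have hf := isCuspPer_cuspForm f
  obtain ⟨h1, h2⟩ := eint_spec one_pos (n + 1) hf
  refine Fermat.Agent.S22.H62.separation_core N n f (eint 1 (n + 1) ⇑f) h1.hol h2 ?_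
  intro γ hγ
  have hdet := det_mapGL γ
  have hinv := slash_mapGL_cuspForm f hγ
  have hzero : perPoly n (⇑f) (mapGL ℝ γ) = 0 := by
    ext j
    rw [coeff_zero]
    by_cases hj : j < n + 1
    · have := h _ (perCoeff_mem_perLattice N n ⟨γ, hγ⟩ hj)
      rwa [perCoeff_apply] at this
    · exact coeff_eq_zero_of_natDegree_lt
        (lt_of_le_of_lt (natDegree_perPoly_le n hf hdet hinv) (by omega))
  have h3 := polyFun_perPoly n hf hdet hinv
  rw [hzero, polyFun_zero, perFun] at h3
  exact (sub_eq_zero.mp h3.symm)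

/-- Conditional form of S22 for the lattice `Fermat.Agent.S22.H50.perLattice`. -/
theorem finite_heckeAlgebra_of_perLattice_stable (N : ℕ) [NeZero N] (k : ℤ) (S : Set ℕ)
    (hT : ∀ (n : ℕ) (ℓ : ℕ) (hℓ : ℓ.Prime) (hℓN : ¬ ℓ ∣ N),
      ∀ l ∈ Fermat.Agent.S22.H50.perLattice N n,
        l ∘ₗ CuspForm.heckeTLin ((n : ℤ) + 2) hℓ hℓN ∈ Fermat.Agent.S22.H50.perLattice N n)
    (hU : ∀ (n : ℕ) (q : ℕ) (hqN : q ∣ N), q.Prime →
      ∀ l ∈ Fermat.Agent.S22.H50.perLattice N n,
        l ∘ₗ CuspForm.heckeULin ((n : ℤ) + 2) hqN ∈ Fermat.Agent.S22.H50.perLattice N n) :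
    Module.Finite ℤ (CuspForm.heckeAlgebra N k S) := by
  by_cases hk : k ≤ 1
  · exact Fermat.Agent.S22.H75.finite_heckeAlgebra_of_weight_le_one N k S hk
  · obtain ⟨n, rfl⟩ : ∃ n : ℕ, k = (n : ℤ) + 2 := ⟨(k - 2).toNat, by omega⟩
    exact Fermat.Agent.S22.H75.finite_heckeAlgebra_of_lattice N _ S
      (Fermat.Agent.S22.H50.perLattice N n) (Fermat.Agent.S22.H50.perLattice_fg N n)
      perLattice_sep (hT n) (hU n)

end Fermat.Agent.S22.H35
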